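import Fermat.Agent.S55.G.Rec.Tow.Spec

/-!
# S55 / G / REC / TOW, leaf ALG-B (helper323, subtask 551)

Pure algebra on Mathlib's `groupCohomology`:

* `resTop : ResTopSpec` — restriction to the subgroup `⊤` is bijective;
* `resCoeffNat : ResCoeffNatSpec` — restriction commutes with change of coefficients;
* `resMapNat : ResMapNatSpec` — restriction commutes with inflation;
* `h2Exact : H2ExactSpec` — exactness of `H²(H, X₁) → H²(H, X₂) → H²(H, X₃)`.
-/

set_option autoImplicit false

open CategoryTheory groupCohomology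

noncomputable section

namespace Fermat.Agent.S55.G.Rec.TOW.H323

open Fermat.Agent.S55 Fermat.Agent.S55.G.Rec.TOW

/-! ## ALG-TOP -/

/-- Restriction to `⊤` is an isomorphism (general coefficient ring, all degrees). -/
theorem resMap_top_bijective_h323 {k Γ : Type} [CommRing k] [Group Γ] (A : Rep.{0} k Γ) (n : ℕ) :
    Function.Bijective (T.resMap A (⊤ : Subgroup Γ) n).hom := by
  let e : (⊤ : Subgroup Γ) ≃* Γ := Subgroup.topEquiv
  have he : ∀ g : (⊤ : Subgroup Γ),
      (LinearEquiv.refl k A.V).toLinearMap ∘ₗ (T.resSub A ⊤).ρ g =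
        A.ρ (e g) ∘ₗ (LinearEquiv.refl k A.V).toLinearMap := fun g => rfl
  let I := groupCohomology.mapIso (A := A) (B := T.resSub A ⊤) e (LinearEquiv.refl k A.V) he n
  have hI : T.resMap A (⊤ : Subgroup Γ) n = I.inv := rfl
  rw [hI]
  exact ConcreteCategory.bijective_of_isIso I.inv

/-- **ALG-TOP.** -/
theorem resTop : ResTopSpec := fun _ _ A n => resMap_top_bijective_h323 A n

/-! ## ALG-RCN -/

/-- Restriction commutes with change of coefficients (all degrees, morphism form). -/
theorem resMap_coeffMap_h323 {k Γ : Type} [CommRing k] [Group Γ] {A B : Rep.{0} k Γ} (f : A ⟶ B)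
    (H : Subgroup Γ) (n : ℕ) :
    T.resMap A H n ≫ T.coeffMap ((Rep.resFunctor H.subtype).map f) n =
      T.coeffMap f n ≫ T.resMap B H n := by
  rw [← groupCohomology.map_comp, ← groupCohomology.map_comp]
  exact groupCohomology.map_congr rfl (by simp) n

/-- **ALG-RCN.** -/
theorem resCoeffNat : ResCoeffNatSpec := by
  intro Γ _ A B f H x
  have h := resMap_coeffMap_h323 f H 2
  exact congrArg (fun φ => φ.hom x) h

/-! ## ALG-NAT -/

section Nat

variable {k Γ' Γ : Type} [CommRing k] [Group Γ'] [Group Γ] (π : Γ' →* Γ)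

/-- The restriction of `π` to `π⁻¹ P → P`. -/
def comapHom_h323 (P : Subgroup Γ) : ↥(P.comap π) →* ↥P where
  toFun g := ⟨π g.1, g.2⟩
  map_one' := Subtype.ext (map_one π)
  map_mul' a b := Subtype.ext (map_mul π a.1 b.1)

variable {π} in
/-- `ι : Res_π C ⟶ C'` restricted to `π⁻¹ P`. -/
def comapCoeff_h323 {C : Rep.{0} k Γ} {C' : Rep.{0} k Γ'} (ι : Rep.res π C ⟶ C')
    (P : Subgroup Γ) :
    Rep.res (comapHom_h323 π P) (T.resSub C P) ⟶ T.resSub C' (P.comap π) :=
  Rep.ofHom ⟨ι.hom.toLinearMap, fun g => LinearMap.ext fun x => Rep.hom_comm_apply ι g.1 x⟩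

/-- Restriction commutes with inflation (all degrees, morphism form). -/
theorem map_resMap_h323 {C : Rep.{0} k Γ} {C' : Rep.{0} k Γ'} (ι : Rep.res π C ⟶ C')
    (P : Subgroup Γ) (n : ℕ) :
    groupCohomology.map π ι n ≫ T.resMap C' (P.comap π) n =
      T.resMap C P n ≫ groupCohomology.map (comapHom_h323 π P) (comapCoeff_h323 ι P) n := by
  rw [← groupCohomology.map_comp, ← groupCohomology.map_comp]
  exact groupCohomology.map_congr rfl (by ext; rfl) n

end Nat

/-- **ALG-NAT.** -/
theorem resMapNat : ResMapNatSpec := by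
  intro Γ' Γ _ _ π C C' ι P z hz
  have h := map_resMap_h323 π ι P 2
  have h2 : res2 C' (P.comap π) ((groupCohomology.map π ι 2).hom z) =
      (groupCohomology.map (comapHom_h323 π P) (comapCoeff_h323 ι P) 2).hom (res2 C P z) :=
    congrArg (fun φ => φ.hom z) h
  rw [h2, hz, map_zero]

/-! ## ALG-SES -/

/-- Exactness of `Hⁿ(Γ, X₁) → Hⁿ(Γ, X₂) → Hⁿ(Γ, X₃)`, elementwise. -/
theorem coeffMap_exact_h323 {k Γ : Type} [CommRing k] [Group Γ] (X : ShortComplex (Rep.{0} k Γ))
    (hX : X.ShortExact) (n : ℕ) (z : groupCohomology X.X₂ n)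
    (hz : (T.coeffMap X.g n).hom z = 0) : ∃ x, (T.coeffMap X.f n).hom x = z := by
  have h := groupCohomology.mapShortComplex₂_exact hX n
  rw [ShortComplex.moduleCat_exact_iff] at h
  exact h z hz

/-- **ALG-SES.** -/
theorem h2Exact : H2ExactSpec := by
  intro Γ _ X hX
  refine ⟨fun z hz => coeffMap_exact_h323 X hX 2 z hz, fun H z hz => ?_⟩
  have hX' : (X.map (Rep.resFunctor H.subtype)).ShortExact := (Rep.shortExact_res H.subtype).2 hX
  exact coeffMap_exact_h323 (X.map (Rep.resFunctor H.subtype)) hX' 2 z hz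

end Fermat.Agent.S55.G.Rec.TOW.H323

end
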